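/-
S56 / ASM (H2) (helper23): THE MODULE `M = ad⁰ρ̄` — one model for every block.

For `ρbar : ResidualGaloisRep k` and a prime `p` with `[Algebra (ZMod p) k]`:

* `adRepn ρbar : Representation k Γ (End_k V)`, `σ • x = ρ̄σ ∘ x ∘ ρ̄σ⁻¹`;
* `ad0Sub ρbar ≤ End_k V` the trace-zero endomorphisms, `ad0Repn ρbar` the subrepresentation;
* `Ad0 ρbar p` : the carrier `↥(ad0Sub ρbar)` as an `𝔽_p`-vector space (restriction of scalars),
  `ad0 ρbar p : Rep (ZMod p) Γ` — **the `M` of blueprint row 50 (D1)**;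
* `Ad0.toEnd : Ad0 ρbar p →ₗ[ZMod p] End_k V` injective, `toEnd_ρ`, `trace_toEnd`, `Ad0.mk`;
* `finrank_ad0 : dim_{𝔽_p} M = 3 · [k : 𝔽_p]`;
* `ad0_ρ_eq_one_of_rho_eq_one`, `exists_level_ad0` (the `hW` of `TW/OneClass.exists_tw_prime_rep`),
  `ad0_ρ_eq_one_of_mem_inertia` (unramified where `ρ̄` is);
* `eq_zero_of_forall_ad0_ρ_eq` : `H⁰(G_ℚ, ad⁰ρ̄) = 0` for `ρ̄` absolutely irreducible, `p ≠ 2`.
-/
import Mathlib
import Fermat.Prelude.Def_GaloisRep_Residual

set_option autoImplicit false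
set_option linter.unusedSectionVars false

namespace Fermat.Agent.S56.Ad

open Module

local notation "Γ" => (AlgebraicClosure ℚ ≃ₐ[ℚ] AlgebraicClosure ℚ)

variable {k : Type} [Field k] (ρbar : ResidualGaloisRep k)

/-! ### the adjoint representation -/

/-- the adjoint representation of `Γ` on `End_k V`: `σ • x = ρ̄σ ∘ x ∘ ρ̄σ⁻¹` -/
noncomputable def adRepn : Representation k Γ (Module.End k ρbar.V) :=
  Representation.linHom ρbar.ρ ρbar.ρ

theorem adRepn_apply (σ : Γ) (x : Module.End k ρbar.V) :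
    adRepn ρbar σ x = ρbar.ρ σ * x * ρbar.ρ σ⁻¹ := rfl

theorem rho_mul_rho_inv (σ : Γ) : ρbar.ρ σ * ρbar.ρ σ⁻¹ = 1 := by
  rw [← map_mul, mul_inv_cancel, map_one]

theorem rho_inv_mul_rho (σ : Γ) : ρbar.ρ σ⁻¹ * ρbar.ρ σ = 1 := by
  rw [← map_mul, inv_mul_cancel, map_one]

theorem trace_adRepn (σ : Γ) (x : Module.End k ρbar.V) :
    LinearMap.trace k ρbar.V (adRepn ρbar σ x) = LinearMap.trace k ρbar.V x := by
  rw [adRepn_apply, LinearMap.trace_mul_comm, ← mul_assoc, rho_inv_mul_rho, one_mul]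

/-- the trace-zero endomorphisms -/
noncomputable def ad0Sub : Submodule k (Module.End k ρbar.V) :=
  LinearMap.ker (LinearMap.trace k ρbar.V)

theorem mem_ad0Sub (x : Module.End k ρbar.V) :
    x ∈ ad0Sub ρbar ↔ LinearMap.trace k ρbar.V x = 0 := LinearMap.mem_ker

theorem ad0Sub_le_comap (σ : Γ) : ad0Sub ρbar ≤ (ad0Sub ρbar).comap (adRepn ρbar σ) := by
  intro x hx
  rw [Submodule.mem_comap, mem_ad0Sub, trace_adRepn]
  exact (mem_ad0Sub ρbar x).mp hx

/-- `ad⁰ρ̄` as a `k`-linear representation -/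
noncomputable def ad0Repn : Representation k Γ ↥(ad0Sub ρbar) :=
  (adRepn ρbar).subrepresentation (ad0Sub ρbar) (ad0Sub_le_comap ρbar)

theorem coe_ad0Repn_apply (σ : Γ) (x : ↥(ad0Sub ρbar)) :
    ((ad0Repn ρbar σ x : ↥(ad0Sub ρbar)) : Module.End k ρbar.V)
      = ρbar.ρ σ * (x : Module.End k ρbar.V) * ρbar.ρ σ⁻¹ := rfl

/-! ### restriction of scalars to `𝔽_p`: the module `M` -/

section Fp

variable (p : ℕ) [Fact p.Prime] [Algebra (ZMod p) k]

/-- the carrier of `ad⁰ρ̄`, as a type of its own (it carries the `𝔽_p`-structure) -/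
def Ad0 (ρbar : ResidualGaloisRep k) (_p : ℕ) : Type := ↥(ad0Sub ρbar)

noncomputable instance : AddCommGroup (Ad0 ρbar p) := inferInstanceAs (AddCommGroup ↥(ad0Sub ρbar))

noncomputable instance instModuleK : Module k (Ad0 ρbar p) :=
  inferInstanceAs (Module k ↥(ad0Sub ρbar))

noncomputable instance instModuleFp : Module (ZMod p) (Ad0 ρbar p) :=
  Module.compHom (Ad0 ρbar p) (algebraMap (ZMod p) k)

theorem Ad0.smul_def (a : ZMod p) (x : Ad0 ρbar p) : a • x = algebraMap (ZMod p) k a • x := rfl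

instance instTowerFp : IsScalarTower (ZMod p) k (Ad0 ρbar p) :=
  ⟨fun a b x => by rw [Ad0.smul_def, Algebra.smul_def, mul_smul]⟩

/-- the inclusion `ad⁰ρ̄ → End_k V`, `k`-linear -/
noncomputable def Ad0.toEndₗ : Ad0 ρbar p →ₗ[k] Module.End k ρbar.V := (ad0Sub ρbar).subtype

/-- the inclusion `ad⁰ρ̄ → End_k V`, additive (the `ι` of `TW/OneClass.not_exists_eq_sub_of_fixed`) -/
noncomputable def Ad0.toEnd : Ad0 ρbar p →+ Module.End k ρbar.V := (Ad0.toEndₗ ρbar p).toAddMonoidHom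

theorem Ad0.toEnd_injective : Function.Injective (Ad0.toEnd ρbar p) := Subtype.val_injective

theorem Ad0.toEnd_smul (a : ZMod p) (x : Ad0 ρbar p) :
    Ad0.toEnd ρbar p (a • x) = algebraMap (ZMod p) k a • Ad0.toEnd ρbar p x := rfl

theorem Ad0.toEnd_smul_k (a : k) (x : Ad0 ρbar p) :
    Ad0.toEnd ρbar p (a • x) = a • Ad0.toEnd ρbar p x := rfl

theorem Ad0.trace_toEnd (x : Ad0 ρbar p) : LinearMap.trace k ρbar.V (Ad0.toEnd ρbar p x) = 0 :=
  (mem_ad0Sub ρbar _).mp x.2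

/-- a trace-zero endomorphism as an element of `ad⁰ρ̄` -/
def Ad0.mk (x : Module.End k ρbar.V) (hx : LinearMap.trace k ρbar.V x = 0) : Ad0 ρbar p :=
  ⟨x, (mem_ad0Sub ρbar x).mpr hx⟩

theorem Ad0.toEnd_mk (x : Module.End k ρbar.V) (hx : LinearMap.trace k ρbar.V x = 0) :
    Ad0.toEnd ρbar p (Ad0.mk ρbar p x hx) = x := rfl

theorem Ad0.ext {x y : Ad0 ρbar p} (h : Ad0.toEnd ρbar p x = Ad0.toEnd ρbar p y) : x = y :=
  Ad0.toEnd_injective ρbar p h

/-- `ad⁰ρ̄` as a `k`-linear representation on the carrier `Ad0` -/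
noncomputable def ad0RepnK : Representation k Γ (Ad0 ρbar p) := ad0Repn ρbar

/-- `ad⁰ρ̄` as an `𝔽_p`-linear representation -/
noncomputable def ad0RepnFp : Representation (ZMod p) Γ (Ad0 ρbar p) where
  toFun σ := (ad0RepnK ρbar p σ).restrictScalars (ZMod p)
  map_one' := by rw [map_one]; rfl
  map_mul' σ τ := by rw [map_mul]; rfl

/-- **The module `M = ad⁰ρ̄`** (blueprint row 50, D1): the trace-zero endomorphisms of `ρ̄`, with
`Γ = Gal(ℚ̄/ℚ)` acting by conjugation, as a representation over `𝔽_p`. -/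
noncomputable abbrev ad0 : Rep (ZMod p) Γ := Rep.of (ad0RepnFp ρbar p)

theorem toEnd_ρ (σ : Γ) (x : Ad0 ρbar p) :
    Ad0.toEnd ρbar p ((ad0 ρbar p).ρ σ x)
      = ρbar.ρ σ * Ad0.toEnd ρbar p x * ρbar.ρ σ⁻¹ := rfl

/-- the action of `σ` on `M` is the `k`-linear map `ad0RepnK ρbar p σ` -/
theorem ad0_ρ_apply (σ : Γ) (x : Ad0 ρbar p) :
    (ad0 ρbar p).ρ σ x = ad0RepnK ρbar p σ x := rfl

end Fp

/-! ### basic properties of `M` -/

section Props

variable (p : ℕ) [Fact p.Prime] [Algebra (ZMod p) k]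

theorem rho_inv_eq_one {σ : Γ} (h : ρbar.ρ σ = 1) : ρbar.ρ σ⁻¹ = 1 := by
  have h1 := rho_inv_mul_rho ρbar σ
  rwa [h, mul_one] at h1

/-- `M` is trivial where `ρ̄` is -/
theorem ad0_ρ_eq_one_of_rho_eq_one {σ : Γ} (h : ρbar.ρ σ = 1) : (ad0 ρbar p).ρ σ = 1 := by
  refine LinearMap.ext fun x => Ad0.ext ρbar p ?_
  rw [toEnd_ρ, h, rho_inv_eq_one ρbar h, one_mul, mul_one]
  rfl

/-- `M` factors through a finite level (the hypothesis `hW` of
`TW/OneClass.exists_tw_prime_rep`, and the `hsm` of S55) -/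
theorem exists_level_ad0 :
    ∃ F : IntermediateField ℚ (AlgebraicClosure ℚ), FiniteDimensional ℚ F ∧
      ∀ s ∈ F.fixingSubgroup, (ad0 ρbar p).ρ s = 1 := by
  obtain ⟨L, hL, h⟩ := ρbar.factorsThroughFiniteLevel
  refine ⟨L, hL, fun s hs => ad0_ρ_eq_one_of_rho_eq_one ρbar p (h s fun x hx => ?_)⟩
  exact (IntermediateField.mem_fixingSubgroup_iff L s).mp hs x hx

/-- `M` is unramified where `ρ̄` is (the `hMur` of S55) -/
theorem ad0_ρ_eq_one_of_mem_inertia {q : ℕ} (hq : ρbar.IsUnramifiedAt q)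
    (A : ValuationSubring (AlgebraicClosure ℚ)) (hA : A.LiesOverPrime q) {g : Γ}
    (hg : g ∈ A.inertiaSubgroupIn ℚ) : (ad0 ρbar p).ρ g = 1 :=
  ad0_ρ_eq_one_of_rho_eq_one ρbar p (hq A hA g hg)

theorem finrank_end : finrank k (Module.End k ρbar.V) = 4 := by
  rw [Module.finrank_linearMap, ρbar.finrank_eq]

theorem finrank_ad0Sub (h2 : (2 : k) ≠ 0) : finrank k ↥(ad0Sub ρbar) = 3 := by
  have h1 := LinearMap.finrank_range_add_finrank_ker (LinearMap.trace k ρbar.V)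
  have hr : LinearMap.range (LinearMap.trace k ρbar.V) = ⊤ := by
    refine LinearMap.range_eq_top.mpr fun c => ⟨(c / 2) • (1 : Module.End k ρbar.V), ?_⟩
    rw [map_smul, LinearMap.trace_one, ρbar.finrank_eq, smul_eq_mul]
    push_cast
    field_simp
  rw [hr, finrank_top, finrank_self, finrank_end] at h1
  have h3 : finrank k ↥(ad0Sub ρbar) = finrank k ↥(LinearMap.ker (LinearMap.trace k ρbar.V)) := rfl
  omega

instance instFiniteK : Module.Finite k (Ad0 ρbar p) :=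
  inferInstanceAs (Module.Finite k ↥(ad0Sub ρbar))

/-- `dim_{𝔽_p} M = 3 · [k : 𝔽_p]` -/
theorem finrank_ad0 (h2 : (2 : k) ≠ 0) :
    finrank (ZMod p) (Ad0 ρbar p) = finrank (ZMod p) k * 3 := by
  rw [← Module.finrank_mul_finrank (ZMod p) k (Ad0 ρbar p)]
  congr 1
  exact finrank_ad0Sub ρbar h2

instance instFiniteFp [Module.Finite (ZMod p) k] : Module.Finite (ZMod p) (Ad0 ρbar p) :=
  Module.Finite.trans k (Ad0 ρbar p)

instance instFiniteFpRep [Module.Finite (ZMod p) k] : Module.Finite (ZMod p) (ad0 ρbar p) :=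
  instFiniteFp ρbar p

end Props

/-! ### `H⁰(G_ℚ, ad⁰ρ̄) = 0` -/

section Schur

open scoped TensorProduct

/-- **Schur**: for `ρ̄` absolutely irreducible and `2 ≠ 0` in `k`, a trace-zero endomorphism
commuting with `ρ̄` is zero. -/
theorem eq_zero_of_forall_commute (habs : ρbar.IsAbsolutelyIrreducible) (h2 : (2 : k) ≠ 0)
    (x : Module.End k ρbar.V) (htr : LinearMap.trace k ρbar.V x = 0)
    (hx : ∀ σ : Γ, ρbar.ρ σ * x = x * ρbar.ρ σ) : x = 0 := by
  classical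
  set K := AlgebraicClosure k with hK
  set xK : Module.End K (K ⊗[k] ρbar.V) := x.baseChange K with hxK
  have hfr : finrank K (K ⊗[k] ρbar.V) = 2 := by
    rw [Module.finrank_baseChange, ρbar.finrank_eq]
  have : Nontrivial (K ⊗[k] ρbar.V) := Module.nontrivial_of_finrank_pos (R := K) (by omega)
  obtain ⟨c, hc⟩ := Module.End.exists_eigenvalue xK
  -- the eigenspace is stable under `ρ̄ ⊗ K`
  have hstable : ∀ σ : Γ, ∀ v ∈ Module.End.eigenspace xK c,
      (ρbar.baseChange K).ρ σ v ∈ Module.End.eigenspace xK c := by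
    intro σ v hv
    rw [Module.End.mem_eigenspace_iff] at hv ⊢
    have hcomm : xK * (ρbar.ρ σ).baseChange K = (ρbar.ρ σ).baseChange K * xK := by
      rw [hxK, ← LinearMap.baseChange_mul, ← LinearMap.baseChange_mul, hx σ]
    change xK ((ρbar.ρ σ).baseChange K v) = c • (ρbar.ρ σ).baseChange K v
    rw [← Module.End.mul_apply, hcomm, Module.End.mul_apply, hv, map_smul]
  have htop : Module.End.eigenspace xK c = ⊤ := by
    rcases habs _ hstable with h | h
    · exact absurd h hc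
    · exact h
  have hxc : xK = c • (1 : Module.End K (K ⊗[k] ρbar.V)) := by
    refine LinearMap.ext fun v => ?_
    have hv : v ∈ Module.End.eigenspace xK c := htop ▸ Submodule.mem_top
    rw [Module.End.mem_eigenspace_iff] at hv
    rw [hv]; rfl
  -- the trace gives `2 c = 0`
  have htrK : LinearMap.trace K (K ⊗[k] ρbar.V) xK = 0 := by
    rw [hxK, LinearMap.trace_baseChange, htr, map_zero]
  rw [hxc, map_smul, LinearMap.trace_one, hfr, smul_eq_mul] at htrK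
  have h2K : ((2 : ℕ) : K) ≠ 0 := by
    have : ((2 : ℕ) : K) = algebraMap k K 2 := by
      rw [Nat.cast_ofNat, map_ofNat]
    rw [this]
    exact (map_ne_zero_iff _ (FaithfulSMul.algebraMap_injective k K)).mpr h2
  have hc0 : c = 0 := (mul_eq_zero.mp htrK).resolve_right h2K
  rw [hc0, zero_smul] at hxc
  -- `x ⊗ K = 0` gives `x = 0`
  have hinj := LinearMap.baseChangeHom_injective (R := k) (S := K) (M := ρbar.V) (N := ρbar.V)
  apply hinj
  rw [map_zero]
  exact hxc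

/-- **`H⁰(G_ℚ, ad⁰ρ̄) = 0`**: for `ρ̄` absolutely irreducible and `p ≠ 2`, `M` has no non-zero
`Γ`-invariant. -/
theorem eq_zero_of_forall_ad0_ρ_eq (p : ℕ) [Fact p.Prime] [Algebra (ZMod p) k]
    (habs : ρbar.IsAbsolutelyIrreducible) (h2 : (2 : k) ≠ 0) (x : Ad0 ρbar p)
    (hx : ∀ σ : Γ, (ad0 ρbar p).ρ σ x = x) : x = 0 := by
  apply Ad0.ext ρbar p
  rw [map_zero]
  refine eq_zero_of_forall_commute ρbar habs h2 _ (Ad0.trace_toEnd ρbar p x) fun σ => ?_
  have h := congrArg (Ad0.toEnd ρbar p) (hx σ)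
  rw [toEnd_ρ] at h
  calc ρbar.ρ σ * Ad0.toEnd ρbar p x
      = ρbar.ρ σ * Ad0.toEnd ρbar p x * (ρbar.ρ σ⁻¹ * ρbar.ρ σ) := by
        rw [rho_inv_mul_rho, mul_one]
    _ = (ρbar.ρ σ * Ad0.toEnd ρbar p x * ρbar.ρ σ⁻¹) * ρbar.ρ σ := by simp only [mul_assoc]
    _ = Ad0.toEnd ρbar p x * ρbar.ρ σ := by rw [h]

end Schur

end Fermat.Agent.S56.Ad
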