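/-
S56 / ASM (H2) (helper23): THE MODULE `M' = (ad⁰ρ̄)^*(1)` and the trace form.

`M := ad0 ρbar p` (`S56/Ad/Ad0`), `M' := M.dualTwist (cycloChar p)` (prelude).  For `2 ≠ 0` in `k`
and `k` finite over `𝔽_p` the trace form `B(x, y) = Tr_{k/𝔽_p} (tr (x ∘ y))` on `M` is perfect and
`Γ`-invariant, which identifies `M'` with `ad⁰ρ̄(1)` inside `End_k V`:

* `end_eq_zero_of_trace_mul` : the trace pairing on `End_k V` is non-degenerate;
* `trForm ρbar p : M →ₗ[𝔽_p] Dual M`, `trForm_apply`, `trForm_bijective`, `trFormEquiv`;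
* `ad0' ρbar p : Rep (ZMod p) Γ` := `(ad0 ρbar p).dualTwist (cycloChar p)` — **the `M'` of row 50**;
* `ιDual ρbar p : M' →+ End_k V` injective, trace-zero, with
  `ιDual (M'.ρ g f) = (χ̄ g : k) • (ρ̄g * ιDual f * ρ̄g⁻¹)` (`ιDual_ρ`), and without the scalar for `g`
  fixing `μ_p` (`ιDual_ρ_of_fix`) — the `ι`, `hιtr`, `hιπ`, `hιfix` of `TW/Select`;
* `finrank_ad0'`, `exists_level_ad0'`, `ad0'_ρ_eq_one_of_mem_inertia`.
-/
import Mathlib
import Fermat.Prelude.Def_GaloisRep_Residual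
import Fermat.Prelude.Def_GroupCohomology_Selmer
import Fermat.Prelude.Def_ExtCitation_KummerBridge
import Fermat.Agent.N4.FrobDensity.CycloFrob
import Fermat.Agent.S56.Ad.Ad0

set_option autoImplicit false
set_option linter.unusedSectionVars false

namespace Fermat.Agent.S56.Ad

open Module ExtCitation

local notation "Qbar" => AlgebraicClosure ℚ
local notation "Γ" => (AlgebraicClosure ℚ ≃ₐ[ℚ] AlgebraicClosure ℚ)

variable {k : Type} [Field k] (ρbar : ResidualGaloisRep k)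

/-! ### the trace pairing on `End_k V` -/

/-- the trace pairing on `End_k V` is non-degenerate -/
theorem end_eq_zero_of_trace_mul (X : Module.End k ρbar.V)
    (h : ∀ Y : Module.End k ρbar.V, LinearMap.trace k ρbar.V (X * Y) = 0) : X = 0 := by
  classical
  let b := Module.finBasis k ρbar.V
  have h1 : LinearMap.toMatrix b b X = 0 := by
    rw [Matrix.ext_iff_trace_mul_right]
    intro x
    have h2 := h ((LinearMap.toMatrix b b).symm x)
    rw [LinearMap.trace_eq_matrix_trace k b, LinearMap.toMatrix_mul,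
      LinearEquiv.apply_symm_apply] at h2
    rw [h2, zero_mul, Matrix.trace_zero]
  exact (LinearMap.toMatrix b b).injective (h1.trans (map_zero _).symm)

/-- a trace-zero `X` orthogonal to all trace-zero `Y` is zero (`2 ≠ 0`) -/
theorem end_eq_zero_of_trace_mul_traceless (h2 : (2 : k) ≠ 0) (X : Module.End k ρbar.V)
    (hX : LinearMap.trace k ρbar.V X = 0)
    (h : ∀ Y : Module.End k ρbar.V, LinearMap.trace k ρbar.V Y = 0 →
      LinearMap.trace k ρbar.V (X * Y) = 0) : X = 0 := by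
  refine end_eq_zero_of_trace_mul ρbar X fun Y => ?_
  set t := LinearMap.trace k ρbar.V Y with ht
  have h1 : LinearMap.trace k ρbar.V (Y - (t / 2) • (1 : Module.End k ρbar.V)) = 0 := by
    rw [map_sub, map_smul, LinearMap.trace_one, ρbar.finrank_eq, smul_eq_mul, ← ht]
    push_cast
    field_simp
    ring
  have h3 := h _ h1
  rw [mul_sub, mul_smul_comm, mul_one, map_sub, map_smul, hX, smul_zero, sub_zero] at h3
  exact h3

/-! ### the trace form on `M` -/

section TrForm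

variable (p : ℕ) [Fact p.Prime] [Algebra (ZMod p) k]

/-- `tr (x ∘ y)` for `x, y ∈ ad⁰ρ̄` -/
noncomputable def trPair (x y : Ad0 ρbar p) : k :=
  LinearMap.trace k ρbar.V (Ad0.toEnd ρbar p x * Ad0.toEnd ρbar p y)

theorem trPair_add_left (x x' y : Ad0 ρbar p) :
    trPair ρbar p (x + x') y = trPair ρbar p x y + trPair ρbar p x' y := by
  unfold trPair; rw [map_add, add_mul, map_add]

theorem trPair_add_right (x y y' : Ad0 ρbar p) :
    trPair ρbar p x (y + y') = trPair ρbar p x y + trPair ρbar p x y' := by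
  unfold trPair; rw [map_add, mul_add, map_add]

theorem trPair_smul_left (a : k) (x y : Ad0 ρbar p) :
    trPair ρbar p (a • x) y = a * trPair ρbar p x y := by
  unfold trPair; rw [Ad0.toEnd_smul_k, smul_mul_assoc, map_smul, smul_eq_mul]

theorem trPair_smul_right (a : k) (x y : Ad0 ρbar p) :
    trPair ρbar p x (a • y) = a * trPair ρbar p x y := by
  unfold trPair; rw [Ad0.toEnd_smul_k, mul_smul_comm, map_smul, smul_eq_mul]

theorem trPair_comm (x y : Ad0 ρbar p) : trPair ρbar p x y = trPair ρbar p y x := by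
  unfold trPair; rw [LinearMap.trace_mul_comm]

/-- `Γ`-invariance of the trace pairing -/
theorem trPair_ρ (σ : Γ) (x y : Ad0 ρbar p) :
    trPair ρbar p ((ad0 ρbar p).ρ σ x) ((ad0 ρbar p).ρ σ y) = trPair ρbar p x y := by
  unfold trPair
  rw [toEnd_ρ, toEnd_ρ]
  have e : ρbar.ρ σ * Ad0.toEnd ρbar p x * ρbar.ρ σ⁻¹ *
      (ρbar.ρ σ * Ad0.toEnd ρbar p y * ρbar.ρ σ⁻¹)
      = ρbar.ρ σ * (Ad0.toEnd ρbar p x * Ad0.toEnd ρbar p y) * ρbar.ρ σ⁻¹ := by
    calc ρbar.ρ σ * Ad0.toEnd ρbar p x * ρbar.ρ σ⁻¹ *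
        (ρbar.ρ σ * Ad0.toEnd ρbar p y * ρbar.ρ σ⁻¹)
        = ρbar.ρ σ * Ad0.toEnd ρbar p x * (ρbar.ρ σ⁻¹ * ρbar.ρ σ) *
          Ad0.toEnd ρbar p y * ρbar.ρ σ⁻¹ := by simp only [mul_assoc]
      _ = ρbar.ρ σ * (Ad0.toEnd ρbar p x * Ad0.toEnd ρbar p y) * ρbar.ρ σ⁻¹ := by
          rw [rho_inv_mul_rho, mul_one]; simp only [mul_assoc]
  rw [e, LinearMap.trace_mul_comm, ← mul_assoc, rho_inv_mul_rho, one_mul]

/-- non-degeneracy over `k` -/
theorem eq_zero_of_trPair_eq_zero (h2 : (2 : k) ≠ 0) (x : Ad0 ρbar p)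
    (h : ∀ y : Ad0 ρbar p, trPair ρbar p x y = 0) : x = 0 := by
  apply Ad0.ext ρbar p
  rw [map_zero]
  refine end_eq_zero_of_trace_mul_traceless ρbar h2 _ (Ad0.trace_toEnd ρbar p x) fun Y hY => ?_
  exact h (Ad0.mk ρbar p Y hY)

/-- **the trace form** `B(x, y) = Tr_{k/𝔽_p} (tr (x ∘ y))`, as a map `M → Dual M` -/
noncomputable def trForm : Ad0 ρbar p →ₗ[ZMod p] Module.Dual (ZMod p) (Ad0 ρbar p) :=
  LinearMap.mk₂ (ZMod p) (fun x y => Algebra.trace (ZMod p) k (trPair ρbar p x y))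
    (fun x x' y => by rw [trPair_add_left, map_add])
    (fun a x y => by
      rw [Ad0.smul_def, trPair_smul_left, ← smul_eq_mul, algebraMap_smul k a (trPair ρbar p x y),
        map_smul])
    (fun x y y' => by rw [trPair_add_right, map_add])
    (fun a x y => by
      rw [Ad0.smul_def, trPair_smul_right, ← smul_eq_mul,
        algebraMap_smul k a (trPair ρbar p x y), map_smul])

theorem trForm_apply (x y : Ad0 ρbar p) :
    trForm ρbar p x y = Algebra.trace (ZMod p) k (trPair ρbar p x y) := rfl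

end TrForm

/-! ### perfectness, and `M'` inside `End_k V` -/

section Perfect

variable (p : ℕ) [Fact p.Prime] [Algebra (ZMod p) k] [Module.Finite (ZMod p) k]

theorem trForm_injective (h2 : (2 : k) ≠ 0) : Function.Injective (trForm ρbar p) := by
  rw [injective_iff_map_eq_zero]
  intro x hx
  refine eq_zero_of_trPair_eq_zero ρbar p h2 x fun y => ?_
  have h : ∀ a : k, Algebra.trace (ZMod p) k (trPair ρbar p x y * a) = 0 := fun a => by
    have h1 : trForm ρbar p x (a • y) = 0 := by rw [hx]; rfl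
    rw [trForm_apply, trPair_smul_right, mul_comm] at h1
    exact h1
  exact (traceForm_nondegenerate (ZMod p) k).1 _ h

/-- the trace form is perfect: `M ≃ Dual M` -/
noncomputable def trFormEquiv (h2 : (2 : k) ≠ 0) :
    Ad0 ρbar p ≃ₗ[ZMod p] Module.Dual (ZMod p) (Ad0 ρbar p) :=
  LinearMap.linearEquivOfInjective (trForm ρbar p) (trForm_injective ρbar p h2)
    Subspace.dual_finrank_eq.symm

theorem trFormEquiv_apply (h2 : (2 : k) ≠ 0) (x : Ad0 ρbar p) :
    trFormEquiv ρbar p h2 x = trForm ρbar p x := rfl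

theorem trForm_bijective (h2 : (2 : k) ≠ 0) : Function.Bijective (trForm ρbar p) :=
  (trFormEquiv ρbar p h2).bijective

/-- **The module `M' = (ad⁰ρ̄)^*(1)`** of blueprint row 50 (D1). -/
noncomputable abbrev ad0' : Rep (ZMod p) Γ := (ad0 ρbar p).dualTwist (cycloChar p)

/-- `M'.ρ g (B(x, ·)) = B(χ̄(g) • g x g⁻¹, ·)` -/
theorem ad0'_ρ_trForm (g : Γ) (x : Ad0 ρbar p) :
    (ad0' ρbar p).ρ g (trForm ρbar p x)
      = trForm ρbar p (((cycloChar p g : (ZMod p)ˣ) : ZMod p) • (ad0 ρbar p).ρ g x) := by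
  refine LinearMap.ext fun y => ?_
  rw [Rep.dualTwist_ρ_apply, LinearMap.smul_apply, LinearMap.comp_apply, map_smul,
    LinearMap.smul_apply, trForm_apply, trForm_apply]
  congr 2
  have h := trPair_ρ ρbar p g x ((ad0 ρbar p).ρ g⁻¹ y)
  rw [← h, ← Module.End.mul_apply, ← map_mul, mul_inv_cancel, map_one]
  rfl

/-- **`M'` inside `End_k V`**: `f ↦ x` with `f = B(x, ·)`. -/
noncomputable def ιDual (h2 : (2 : k) ≠ 0) : ad0' ρbar p →+ Module.End k ρbar.V :=
  (Ad0.toEnd ρbar p).comp (trFormEquiv ρbar p h2).symm.toLinearMap.toAddMonoidHom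

theorem ιDual_apply (h2 : (2 : k) ≠ 0) (f : ad0' ρbar p) :
    ιDual ρbar p h2 f = Ad0.toEnd ρbar p ((trFormEquiv ρbar p h2).symm f) := rfl

theorem ιDual_injective (h2 : (2 : k) ≠ 0) : Function.Injective (ιDual ρbar p h2) :=
  (Ad0.toEnd_injective ρbar p).comp (trFormEquiv ρbar p h2).symm.injective

theorem trace_ιDual (h2 : (2 : k) ≠ 0) (f : ad0' ρbar p) :
    LinearMap.trace k ρbar.V (ιDual ρbar p h2 f) = 0 :=
  Ad0.trace_toEnd ρbar p _

/-- **the action of `Γ` on `M' ⊂ End_k V`**: `g • x = χ̄(g) · ρ̄g ∘ x ∘ ρ̄g⁻¹`. -/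
theorem ιDual_ρ (h2 : (2 : k) ≠ 0) (g : Γ) (f : ad0' ρbar p) :
    ιDual ρbar p h2 ((ad0' ρbar p).ρ g f)
      = algebraMap (ZMod p) k ((cycloChar p g : (ZMod p)ˣ) : ZMod p) •
        (ρbar.ρ g * ιDual ρbar p h2 f * ρbar.ρ g⁻¹) := by
  obtain ⟨x, rfl⟩ := (trFormEquiv ρbar p h2).surjective f
  rw [ιDual_apply, ιDual_apply, LinearEquiv.symm_apply_apply, trFormEquiv_apply, ad0'_ρ_trForm,
    ← trFormEquiv_apply ρbar p h2, LinearEquiv.symm_apply_apply, Ad0.toEnd_smul, toEnd_ρ]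

theorem cycloChar_eq_one_of_fix {g : Γ} (hg : ∀ ζ : Qbar, ζ ^ p = 1 → g ζ = ζ) :
    ((cycloChar p g : (ZMod p)ˣ) : ZMod p) = 1 := by
  have : Fact (1 < p) := ⟨(Fact.out : p.Prime).one_lt⟩
  refine Fermat.Agent.N4.FrobDensity.cycloChar_eq_of_forall p g 1 fun t ht => ?_
  rw [ZMod.val_one, pow_one]
  exact hg t ht

/-- for `g` fixing `μ_p` the action on `M'` is plain conjugation -/
theorem ιDual_ρ_of_fix (h2 : (2 : k) ≠ 0) {g : Γ} (hg : ∀ ζ : Qbar, ζ ^ p = 1 → g ζ = ζ)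
    (f : ad0' ρbar p) :
    ιDual ρbar p h2 ((ad0' ρbar p).ρ g f) = ρbar.ρ g * ιDual ρbar p h2 f * ρbar.ρ g⁻¹ := by
  rw [ιDual_ρ, cycloChar_eq_one_of_fix p hg, map_one, one_smul]

end Perfect

/-! ### basic properties of `M'` -/

section Props'

open Fermat.Agent.N4.FrobDensity

variable (p : ℕ) [Fact p.Prime] [Algebra (ZMod p) k] [Module.Finite (ZMod p) k]

/-- `M'` is trivial where `ρ̄` and `χ̄` are -/
theorem ad0'_ρ_eq_one {σ : Γ} (h : ρbar.ρ σ = 1) (hχ : cycloChar p σ = 1) :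
    (ad0' ρbar p).ρ σ = 1 := by
  refine LinearMap.ext fun f => ?_
  rw [Rep.dualTwist_ρ_apply, hχ, Units.val_one, one_smul,
    ad0_ρ_eq_one_of_rho_eq_one ρbar p (rho_inv_eq_one ρbar h)]
  rfl

/-- `M'` factors through a finite level -/
theorem exists_level_ad0' :
    ∃ F : IntermediateField ℚ Qbar, FiniteDimensional ℚ F ∧
      ∀ s ∈ F.fixingSubgroup, (ad0' ρbar p).ρ s = 1 := by
  obtain ⟨L, hL, h⟩ := ρbar.factorsThroughFiniteLevel
  obtain ⟨L', hL', h'⟩ := cycloChar_factors p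
  refine ⟨L ⊔ L', IntermediateField.finiteDimensional_sup L L', fun s hs => ?_⟩
  have hs' := (IntermediateField.mem_fixingSubgroup_iff _ s).mp hs
  exact ad0'_ρ_eq_one ρbar p (h s fun x hx => hs' x (le_sup_left (b := L') hx))
    (h' s fun x hx => hs' x (le_sup_right (a := L) hx))

/-- `M'` is unramified at `q ≠ p` where `ρ̄` is -/
theorem ad0'_ρ_eq_one_of_mem_inertia {q : ℕ} (hqp : q.Prime) (hq : q ≠ p)
    (hur : ρbar.IsUnramifiedAt q) (A : ValuationSubring Qbar) (hA : A.LiesOverPrime q) {g : Γ}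
    (hg : g ∈ A.inertiaSubgroupIn ℚ) : (ad0' ρbar p).ρ g = 1 :=
  ad0'_ρ_eq_one ρbar p (hur A hA g hg) (cycloChar_inertia p hqp hq hA hg)

/-- `dim_{𝔽_p} M' = 3 · [k : 𝔽_p]` -/
theorem finrank_ad0' (h2 : (2 : k) ≠ 0) :
    finrank (ZMod p) (ad0' ρbar p) = finrank (ZMod p) k * 3 := by
  rw [Rep.finrank_dualTwist, finrank_ad0 ρbar p h2]

end Props'

end Fermat.Agent.S56.Ad
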