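/-
S56 / ASM (H2) (helper23): `M' ≅ M(1)` as representations, and `M' ≅ M` on `ker χ̄`.

* `trForm_ρ` : `trForm (χ̄(g) • M.ρ g x) = M'.ρ g (trForm x)`;
* `twistEquiv` / `twistIso` : the trace form as an equivalence of representations
  `(ad0 ρbar p).ρ.twist χ̄ ≃ (ad0' ρbar p).ρ`, and as an isomorphism
  `(ad0 ρbar p).twist (cycloChar p) ≅ ad0' ρbar p` in `Rep (ZMod p) Γ`;
* `trForm_ρ_of_cyclo_eq_one`, `invariant_iff_trForm_invariant` : on `{g | χ̄ g = 1}` the trace form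
  intertwines `M` and `M'`; hence `M^H ≅ M'^H` for `H ≤ ker χ̄` (`invariantsEquiv`,
  `finrank_invariants_eq`) — for E-Q: `h⁰(G_q, M') = h⁰(G_q, M)` when `q ≡ 1 (p)`.
-/
import Mathlib
import Fermat.Agent.S56.Ad.Ad0Dual

set_option autoImplicit false
set_option linter.unusedSectionVars false

namespace Fermat.Agent.S56.Ad

open Module ExtCitation CategoryTheory

local notation "Qbar" => AlgebraicClosure ℚ
local notation "Γ" => (AlgebraicClosure ℚ ≃ₐ[ℚ] AlgebraicClosure ℚ)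

variable {k : Type} [Field k] (ρbar : ResidualGaloisRep k)
  (p : ℕ) [Fact p.Prime] [Algebra (ZMod p) k] [Module.Finite (ZMod p) k]

/-- `trForm (χ̄(g) • M.ρ g x) = M'.ρ g (trForm x)` -/
theorem trForm_ρ (g : Γ) (x : Ad0 ρbar p) :
    trForm ρbar p (((cycloChar p g : (ZMod p)ˣ) : ZMod p) • (ad0 ρbar p).ρ g x)
      = (ad0' ρbar p).ρ g (trForm ρbar p x) :=
  (ad0'_ρ_trForm ρbar p g x).symm

/-- the trace form as an equivalence of representations `M ⊗ χ̄ ≃ M'` -/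
noncomputable def twistEquiv (h2 : (2 : k) ≠ 0) :
    ((ad0 ρbar p).ρ.twist (cycloChar p)).Equiv ((ad0 ρbar p).ρ.dual.twist (cycloChar p)) :=
  Representation.Equiv.mk (trFormEquiv ρbar p h2) fun g => LinearMap.ext fun x => by
    change trForm ρbar p (((cycloChar p g : (ZMod p)ˣ) : ZMod p) • (ad0 ρbar p).ρ g x)
      = (ad0' ρbar p).ρ g (trForm ρbar p x)
    exact trForm_ρ ρbar p g x

/-- **`M(1) ≅ M'`** in `Rep (ZMod p) Γ`, via the trace form. -/
noncomputable def twistIso (h2 : (2 : k) ≠ 0) :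
    (ad0 ρbar p).twist (cycloChar p) ≅ ad0' ρbar p :=
  Rep.mkIso (twistEquiv ρbar p h2)

theorem twistIso_hom_apply (h2 : (2 : k) ≠ 0) (x : Ad0 ρbar p) :
    (twistIso ρbar p h2).hom.hom x = trForm ρbar p x := rfl

/-- on `ker χ̄` the trace form intertwines `M` and `M'` -/
theorem trForm_ρ_of_cyclo_eq_one {g : Γ} (hg : cycloChar p g = 1) (x : Ad0 ρbar p) :
    trForm ρbar p ((ad0 ρbar p).ρ g x) = (ad0' ρbar p).ρ g (trForm ρbar p x) := by
  rw [← trForm_ρ, hg, Units.val_one, one_smul]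

/-- `x ∈ M` is fixed by `g ∈ ker χ̄` iff `trForm x ∈ M'` is -/
theorem fixed_iff_trForm_fixed (h2 : (2 : k) ≠ 0) {g : Γ} (hg : cycloChar p g = 1)
    (x : Ad0 ρbar p) :
    (ad0 ρbar p).ρ g x = x ↔ (ad0' ρbar p).ρ g (trForm ρbar p x) = trForm ρbar p x := by
  rw [← trForm_ρ_of_cyclo_eq_one ρbar p hg]
  exact (trForm_injective ρbar p h2).eq_iff.symm

/-- the invariants of a set `H ⊆ ker χ̄` in `M`, as an `𝔽_p`-subspace -/
def invariantsOf (H : Set Γ) : Submodule (ZMod p) (Ad0 ρbar p) where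
  carrier := {x | ∀ g ∈ H, (ad0 ρbar p).ρ g x = x}
  add_mem' := fun hx hy g hg => by rw [map_add, hx g hg, hy g hg]
  zero_mem' := fun g _ => map_zero _
  smul_mem' := fun a x hx g hg => by rw [map_smul, hx g hg]

/-- the invariants of a set `H` in `M'`, as an `𝔽_p`-subspace -/
def invariantsOf' (H : Set Γ) : Submodule (ZMod p) (ad0' ρbar p) where
  carrier := {f | ∀ g ∈ H, (ad0' ρbar p).ρ g f = f}
  add_mem' := fun hx hy g hg => by rw [map_add, hx g hg, hy g hg]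
  zero_mem' := fun g _ => map_zero _
  smul_mem' := fun a x hx g hg => by rw [map_smul, hx g hg]

theorem mem_invariantsOf {H : Set Γ} {x : Ad0 ρbar p} :
    x ∈ invariantsOf ρbar p H ↔ ∀ g ∈ H, (ad0 ρbar p).ρ g x = x := Iff.rfl

theorem mem_invariantsOf' {H : Set Γ} {f : ad0' ρbar p} :
    f ∈ invariantsOf' ρbar p H ↔ ∀ g ∈ H, (ad0' ρbar p).ρ g f = f := Iff.rfl

/-- **`M^H ≅ M'^H` for `H ⊆ ker χ̄`** (e.g. `H` = a decomposition group at `q ≡ 1 (p)`). -/
noncomputable def invariantsEquiv (h2 : (2 : k) ≠ 0) (H : Set Γ)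
    (hH : ∀ g ∈ H, cycloChar p g = 1) :
    invariantsOf ρbar p H ≃ₗ[ZMod p] invariantsOf' ρbar p H :=
  LinearEquiv.ofBijective
    ((trForm ρbar p).restrict (p := invariantsOf ρbar p H) (q := invariantsOf' ρbar p H)
      fun x hx g hg => (fixed_iff_trForm_fixed ρbar p h2 (hH g hg) x).mp (hx g hg))
    ⟨fun x y hxy => Subtype.ext (trForm_injective ρbar p h2 (congrArg Subtype.val hxy)),
     fun f => by
      obtain ⟨x, hx⟩ := (trForm_bijective ρbar p h2).2 f.1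
      refine ⟨⟨x, fun g hg => ?_⟩, Subtype.ext hx⟩
      rw [fixed_iff_trForm_fixed ρbar p h2 (hH g hg), hx]
      exact f.2 g hg⟩

theorem finrank_invariants_eq (h2 : (2 : k) ≠ 0) (H : Set Γ)
    (hH : ∀ g ∈ H, cycloChar p g = 1) :
    finrank (ZMod p) (invariantsOf' ρbar p H) = finrank (ZMod p) (invariantsOf ρbar p H) :=
  (invariantsEquiv ρbar p h2 H hH).finrank_eq.symm

end Fermat.Agent.S56.Ad
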