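/-
S56 / ASM (H2) (helper23): THE ARCHIMEDEAN TERM — `dim_{𝔽_p} M^{c = -1} = 2 · [k : 𝔽_p]` for an
involution `c` with `det ρ̄(c) = -1` (complex conjugation, `ρ̄` odd), `M = ad⁰ρ̄`.

* `finrank_ker_sub_add_finrank_ker_add` : for an involution `T` of a finite-dimensional space with
  `2 ≠ 0`: `dim ker (T - 1) + dim ker (T + 1) = dim`;
* `trace_eq_zero_of_involution`, `not_scalar_of_involution`, `eq_smul_of_commute_of_involution`
  : an involution `s` of a plane with `det s = -1` has trace `0`, is not scalar, and its trace-zero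
  centraliser is the line `k · s`;
* **`finrank_plusPart_ad0 = d`**, **`finrank_minusPart_ad0 = 2 d`** (`d = [k : 𝔽_p]`): the
  `(±1)`-eigenspaces of `(ad0 ρbar p).ρ c`, in the shape of `GEC/Additive.minusPart`
  (`LinearMap.ker (Y.ρ c + LinearMap.id)`).
-/
import Mathlib
import Fermat.Agent.S56.Ad.Ad0
import Fermat.Agent.S56.TW.LemmaG

set_option autoImplicit false
set_option linter.unusedSectionVars false

namespace Fermat.Agent.S56.Ad

open Module

local notation "Γ" => (AlgebraicClosure ℚ ≃ₐ[ℚ] AlgebraicClosure ℚ)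

/-! ### involutions of a vector space -/

section Involution

variable {F W : Type*} [Field F] [AddCommGroup W] [Module F W] [FiniteDimensional F W]

/-- for an involution `T` with `2 ≠ 0`: `dim ker (T - 1) + dim ker (T + 1) = dim W` -/
theorem finrank_ker_sub_add_finrank_ker_add (T : W →ₗ[F] W) (hT : ∀ x, T (T x) = x)
    (h2 : (2 : F) ≠ 0) :
    finrank F ↥(LinearMap.ker (T - LinearMap.id)) + finrank F ↥(LinearMap.ker (T + LinearMap.id))
      = finrank F W := by
  have hinf : LinearMap.ker (T - LinearMap.id) ⊓ LinearMap.ker (T + LinearMap.id) = ⊥ := by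
    rw [eq_bot_iff]
    rintro x ⟨h1, h2'⟩
    have e1 : T x - x = 0 := h1
    have e2 : T x + x = 0 := h2'
    have e3 : (2 : F) • x = 0 := by
      have : (2 : F) • x = (T x + x) - (T x - x) := by rw [two_smul]; abel
      rw [this, e1, e2, sub_zero]
    exact (Submodule.mem_bot F).mpr ((smul_eq_zero.mp e3).resolve_left h2)
  have hsup : LinearMap.ker (T - LinearMap.id) ⊔ LinearMap.ker (T + LinearMap.id) = ⊤ := by
    rw [eq_top_iff]
    intro x _
    have hx : x = (2 : F)⁻¹ • (x + T x) + (2 : F)⁻¹ • (x - T x) := by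
      rw [← smul_add, add_add_sub_cancel, ← two_smul F x, smul_smul, inv_mul_cancel₀ h2, one_smul]
    rw [hx]
    refine Submodule.add_mem_sup ?_ ?_
    · refine Submodule.smul_mem _ _ ?_
      change T (x + T x) - (x + T x) = 0
      rw [map_add, hT]; abel
    · refine Submodule.smul_mem _ _ ?_
      change T (x - T x) + (x - T x) = 0
      rw [map_sub, hT]; abel
  have h := Submodule.finrank_sup_add_finrank_inf_eq (LinearMap.ker (T - LinearMap.id))
    (LinearMap.ker (T + LinearMap.id))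
  rw [hinf, hsup, finrank_top, finrank_bot, add_zero] at h
  exact h.symm

end Involution

/-! ### involutions of determinant `-1` on the plane of `ρ̄` -/

section Plane

open Fermat.Agent.S56.TW.LemmaG

variable {k : Type} [Field k] (ρbar : ResidualGaloisRep k)

theorem not_scalar_of_involution {s : Module.End k ρbar.V} (hs : s * s = 1)
    (hdet : LinearMap.det s = -1) (h2 : (2 : k) ≠ 0) : ¬ ∃ a : k, ∀ v : ρbar.V, s v = a • v := by
  rintro ⟨a, ha⟩
  have hsa : s = a • (1 : Module.End k ρbar.V) := LinearMap.ext fun v => by rw [ha]; rfl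
  have hnt : Nontrivial ρbar.V :=
    Module.nontrivial_of_finrank_pos (R := k) (by rw [ρbar.finrank_eq]; norm_num)
  obtain ⟨v, hv⟩ := exists_ne (0 : ρbar.V)
  have h1 : a * a = 1 := by
    have h := congrArg (fun f : Module.End k ρbar.V => f v) hs
    simp only [Module.End.mul_apply, Module.End.one_apply, ha, smul_smul] at h
    have h' : (a * a - 1) • v = 0 := by rw [sub_smul, h, one_smul, sub_self]
    exact sub_eq_zero.mp ((smul_eq_zero.mp h').resolve_right hv)
  have h3 : LinearMap.det s = a * a := by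
    rw [hsa, LinearMap.det_smul, ρbar.finrank_eq, map_one, mul_one, pow_two]
  rw [h3, h1] at hdet
  apply h2
  have : (2 : k) = 1 - (-1) := by ring
  rw [this, ← hdet, sub_self]

theorem trace_eq_zero_of_involution {s : Module.End k ρbar.V} (hs : s * s = 1)
    (hdet : LinearMap.det s = -1) (h2 : (2 : k) ≠ 0) : LinearMap.trace k ρbar.V s = 0 := by
  by_contra ht
  set t := LinearMap.trace k ρbar.V s with htdef
  have htr' : LinearMap.trace k ρbar.V (s - (t / 2) • (1 : Module.End k ρbar.V)) = 0 := by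
    rw [map_sub, map_smul, LinearMap.trace_one, ρbar.finrank_eq, smul_eq_mul, ← htdef]
    push_cast
    field_simp
    ring
  obtain ⟨d, hd⟩ := exists_mul_self_eq_smul_one ρbar.finrank_eq _ htr'
  have hexp : (s - (t / 2) • (1 : Module.End k ρbar.V)) * (s - (t / 2) • (1 : Module.End k ρbar.V))
      = (1 + (t / 2) * (t / 2)) • (1 : Module.End k ρbar.V) - t • s := by
    rw [sub_mul, mul_sub, mul_sub, hs, smul_mul_assoc, one_mul, mul_smul_comm, mul_one,
      smul_mul_assoc, one_mul, smul_smul, add_smul, one_smul]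
    have : t • s = (t / 2) • s + (t / 2) • s := by
      have : NeZero (2 : k) := ⟨h2⟩
      rw [← add_smul, add_halves]
    rw [this]; abel
  rw [hexp] at hd
  have hts : t • s = (1 + (t / 2) * (t / 2) - d) • (1 : Module.End k ρbar.V) := by
    rw [sub_smul, ← hd]; abel
  refine not_scalar_of_involution ρbar hs hdet h2 ⟨t⁻¹ * (1 + (t / 2) * (t / 2) - d), fun v => ?_⟩
  have h := congrArg (fun f : Module.End k ρbar.V => t⁻¹ • f v) hts
  simp only [LinearMap.smul_apply, Module.End.one_apply, smul_smul, inv_mul_cancel₀ ht,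
    one_smul] at h
  exact h

/-- the trace-zero centraliser of an involution of determinant `-1` is the line `k · s` -/
theorem eq_smul_of_commute_of_involution {s : Module.End k ρbar.V} (hs : s * s = 1)
    (hdet : LinearMap.det s = -1) (h2 : (2 : k) ≠ 0) (x : Module.End k ρbar.V)
    (htr : LinearMap.trace k ρbar.V x = 0) (hx : x * s = s * x) : ∃ b : k, x = b • s := by
  obtain ⟨a, b, hab⟩ := exists_eq_smul_add_smul_of_commute ρbar.finrank_eq s x
    (not_scalar_of_involution ρbar hs hdet h2) hx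
  have hxab : x = a • (1 : Module.End k ρbar.V) + b • s := LinearMap.ext fun v => by
    rw [hab v]; rfl
  have h := htr
  rw [hxab, map_add, map_smul, map_smul, LinearMap.trace_one, ρbar.finrank_eq,
    trace_eq_zero_of_involution ρbar hs hdet h2, smul_zero, add_zero, smul_eq_mul] at h
  have ha : a = 0 := by
    rcases mul_eq_zero.mp h with h' | h'
    · exact h'
    · exact absurd (by exact_mod_cast h') h2
  refine ⟨b, ?_⟩
  rw [hxab, ha, zero_smul, zero_add]

end Plane

/-! ### the eigenspaces of complex conjugation on `M = ad⁰ρ̄` -/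

section Arch

variable {k : Type} [Field k] (ρbar : ResidualGaloisRep k)
  (p : ℕ) [Fact p.Prime] [Algebra (ZMod p) k] [Module.Finite (ZMod p) k]

theorem two_ne_zero_zmod (h2 : (2 : k) ≠ 0) : (2 : ZMod p) ≠ 0 := by
  intro h
  apply h2
  have h' := congrArg (algebraMap (ZMod p) k) h
  rwa [map_ofNat, map_zero] at h'

variable {c : Γ}

theorem rho_mul_self (hc : c * c = 1) : ρbar.ρ c * ρbar.ρ c = 1 := by
  rw [← map_mul, hc, map_one]

theorem rho_inv_eq_self (hc : c * c = 1) : ρbar.ρ c⁻¹ = ρbar.ρ c := by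
  rw [inv_eq_of_mul_eq_one_right hc]

/-- `x ∈ M` is fixed by `c` iff it commutes with `ρ̄ c` -/
theorem ad0_ρ_eq_self_iff (hc : c * c = 1) (x : Ad0 ρbar p) :
    (ad0 ρbar p).ρ c x = x ↔ Ad0.toEnd ρbar p x * ρbar.ρ c = ρbar.ρ c * Ad0.toEnd ρbar p x := by
  constructor
  · intro h
    have h1 := congrArg (Ad0.toEnd ρbar p) h
    rw [toEnd_ρ, rho_inv_eq_self ρbar hc] at h1
    calc Ad0.toEnd ρbar p x * ρbar.ρ c
        = ρbar.ρ c * Ad0.toEnd ρbar p x * ρbar.ρ c * ρbar.ρ c := by rw [h1]
      _ = ρbar.ρ c * Ad0.toEnd ρbar p x * (ρbar.ρ c * ρbar.ρ c) := by rw [mul_assoc]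
      _ = ρbar.ρ c * Ad0.toEnd ρbar p x := by rw [rho_mul_self ρbar hc, mul_one]
  · intro h
    apply Ad0.ext ρbar p
    rw [toEnd_ρ, rho_inv_eq_self ρbar hc, ← h, mul_assoc, rho_mul_self ρbar hc, mul_one]

theorem ad0_ρ_involution (hc : c * c = 1) (x : Ad0 ρbar p) :
    (ad0 ρbar p).ρ c ((ad0 ρbar p).ρ c x) = x := by
  rw [← Module.End.mul_apply, ← map_mul, hc, map_one]
  rfl

/-- **`dim_{𝔽_p} M^{c = 1} = d`** for an involution `c` with `det ρ̄ c = -1`. -/
theorem finrank_plusPart_ad0 (hc : c * c = 1) (hdet : LinearMap.det (ρbar.ρ c) = -1)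
    (h2 : (2 : k) ≠ 0) :
    finrank (ZMod p)
      ↥(LinearMap.ker (((ad0 ρbar p).ρ c : Ad0 ρbar p →ₗ[ZMod p] Ad0 ρbar p) - LinearMap.id))
      = finrank (ZMod p) k := by
  have hs := rho_mul_self ρbar hc
  set s₀ : Ad0 ρbar p := Ad0.mk ρbar p (ρbar.ρ c) (trace_eq_zero_of_involution ρbar hs hdet h2)
    with hs₀
  have hs₀ne : s₀ ≠ 0 := by
    intro h
    have h1 := congrArg (Ad0.toEnd ρbar p) h
    rw [hs₀, Ad0.toEnd_mk, map_zero] at h1
    rw [h1, zero_mul] at hs
    have hnt : Nontrivial ρbar.V :=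
      Module.nontrivial_of_finrank_pos (R := k) (by rw [ρbar.finrank_eq]; norm_num)
    exact zero_ne_one hs
  set f : k →ₗ[ZMod p] Ad0 ρbar p :=
    (LinearMap.toSpanSingleton k (Ad0 ρbar p) s₀).restrictScalars (ZMod p) with hf
  have hfa : ∀ a : k, f a = a • s₀ := fun a => rfl
  have hinj : Function.Injective f := by
    rw [injective_iff_map_eq_zero]
    intro a ha
    rw [hfa] at ha
    exact (smul_eq_zero.mp ha).resolve_right hs₀ne
  have hrange : LinearMap.range f
      = LinearMap.ker (((ad0 ρbar p).ρ c : Ad0 ρbar p →ₗ[ZMod p] Ad0 ρbar p) - LinearMap.id) := by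
    ext x
    rw [LinearMap.mem_range, LinearMap.mem_ker, LinearMap.sub_apply, LinearMap.id_apply,
      sub_eq_zero, ad0_ρ_eq_self_iff ρbar p hc]
    constructor
    · rintro ⟨a, rfl⟩
      rw [hfa, Ad0.toEnd_smul_k, hs₀, Ad0.toEnd_mk, smul_mul_assoc, mul_smul_comm]
    · intro hx
      obtain ⟨b, hb⟩ := eq_smul_of_commute_of_involution ρbar hs hdet h2 _
        (Ad0.trace_toEnd ρbar p x) hx
      refine ⟨b, Ad0.ext ρbar p ?_⟩
      rw [hfa, Ad0.toEnd_smul_k, hs₀, Ad0.toEnd_mk, hb]
  rw [← hrange, LinearMap.finrank_range_of_inj hinj]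

/-- **`dim_{𝔽_p} M^{c = -1} = 2 d`** for an involution `c` with `det ρ̄ c = -1` (complex
conjugation): the archimedean term of the global Euler characteristic formula. -/
theorem finrank_minusPart_ad0 (hc : c * c = 1) (hdet : LinearMap.det (ρbar.ρ c) = -1)
    (h2 : (2 : k) ≠ 0) :
    finrank (ZMod p)
      ↥(LinearMap.ker (((ad0 ρbar p).ρ c : Ad0 ρbar p →ₗ[ZMod p] Ad0 ρbar p) + LinearMap.id))
      = finrank (ZMod p) k * 2 := by
  have h1 := finrank_ker_sub_add_finrank_ker_add
    ((ad0 ρbar p).ρ c : Ad0 ρbar p →ₗ[ZMod p] Ad0 ρbar p) (ad0_ρ_involution ρbar p hc)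
    (two_ne_zero_zmod p h2)
  rw [finrank_plusPart_ad0 ρbar p hc hdet h2, finrank_ad0 ρbar p h2] at h1
  omega

end Arch

end Fermat.Agent.S56.Ad
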