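/-
S56 / H2 (helper23): `dim_{𝔽_p} (ad⁰ρ̄)^{c = -1} = 2d` FOR THE COMPLEX CONJUGATION OF RECORD.

`c := complexConjugation` (prelude constant; `GEC/Equivariant/Arch.cc`, `cycloChar p cc = -1`).  Under
the frozen `hdet : DetIsCyclotomic p` one has `det ρ̄(c) = χ̄(c) = -1`, hence (`Ad0Conj`) the
`(-1)`-eigenspace of `c` on `M = ad0 ρbar p` has `𝔽_p`-dimension `2d`, `d = [k : 𝔽_p]` — stated with
helper25's `GEC/Additive.minusPart`, i.e. the summand `e` of `eulerF` / of `Asm/Count.finrank_Sel_le`.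
-/
import Mathlib
import Fermat.Agent.S56.Ad.Ad0Conj
import Fermat.Agent.S56.TW.SelectH
import Fermat.Agent.S56.GEC.Equivariant.Arch
import Fermat.Agent.S56.GEC.Additive

set_option autoImplicit false
set_option linter.unusedSectionVars false

namespace Fermat.Agent.S56.Ad

open Module ExtCitation Fermat.Agent.S56.GEC.Equivariant.Arch Fermat.Agent.S56.TW.SelectH

local notation "Qbar" => AlgebraicClosure ℚ
local notation "Γ" => (AlgebraicClosure ℚ ≃ₐ[ℚ] AlgebraicClosure ℚ)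

variable {k : Type} [Field k] (ρbar : ResidualGaloisRep k)
  (p : ℕ) [Fact p.Prime] [Algebra (ZMod p) k] [Module.Finite (ZMod p) k]

/-- `det ρ̄(c) = -1` for the complex conjugation `c` -/
theorem det_rho_cc (hdet : (GaloisRepAdic.ofResidualGaloisRep ρbar).DetIsCyclotomic p) :
    LinearMap.det (ρbar.ρ cc) = -1 := by
  rw [det_rho_eq_cycloChar ρbar p hdet, cycloChar_cc, Units.val_neg, Units.val_one, map_neg,
    map_one]

/-- **`dim_{𝔽_p} M^{c = -1} = 2d`** for `M = ad0 ρbar p` and the complex conjugation `c`. -/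
theorem finrank_minusPart_ad0_cc
    (hdet : (GaloisRepAdic.ofResidualGaloisRep ρbar).DetIsCyclotomic p) (h2 : (2 : k) ≠ 0) :
    finrank (ZMod p) ↥(Fermat.Agent.S56.GEC.Additive.minusPart cc (ad0 ρbar p))
      = finrank (ZMod p) k * 2 :=
  finrank_minusPart_ad0 ρbar p cc_mul_self (det_rho_cc ρbar p hdet) h2

/-- `dim_{𝔽_p} M^{c = 1} = d` -/
theorem finrank_plusPart_ad0_cc
    (hdet : (GaloisRepAdic.ofResidualGaloisRep ρbar).DetIsCyclotomic p) (h2 : (2 : k) ≠ 0) :
    finrank (ZMod p)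
      ↥(LinearMap.ker (((ad0 ρbar p).ρ cc : Ad0 ρbar p →ₗ[ZMod p] Ad0 ρbar p) - LinearMap.id))
      = finrank (ZMod p) k :=
  finrank_plusPart_ad0 ρbar p cc_mul_self (det_rho_cc ρbar p hdet) h2

end Fermat.Agent.S56.Ad
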